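import Fermat.Agent.EC.Torsion.Count
import Fermat.Prelude.Def_GaloisRep_Residual

/-!
# Multiplication by `n` on elliptic curves and the count `#E[n] = n²`

The multiplication formula `x(nP) = Φ_n(x) / ΨSq_n(x)`, the criterion for `nP = 0` by division
polynomials, and the cardinality of `E[n]`.
-/

set_option autoImplicit false

open Polynomial
open scoped WeierstrassCurve.Affine

namespace Fermat.Agent.EC.Torsion

open WeierstrassCurve.Affine (Point)

section Field

variable {F : Type*} [Field F] [DecidableEq F] {W : WeierstrassCurve.Affine F}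

/-- An affine point is killed by `n` exactly when `ΨSq_n` vanishes at its abscissa. -/
theorem zsmul_some_eq_zero_iff [W.IsElliptic] (n : ℤ) {x y : F} (h : W.Nonsingular x y) :
    n • Point.some x y h = 0 ↔ (W.ΨSq n).eval x = 0 :=
  zsmul_eq_zero_iff_eval n h

theorem nsmul_some_eq_zero_iff [W.IsElliptic] (n : ℕ) {x y : F} (h : W.Nonsingular x y) :
    n • Point.some x y h = 0 ↔ (W.ΨSq n).eval x = 0 := by
  rw [← natCast_zsmul]
  exact zsmul_eq_zero_iff_eval (n : ℤ) h

theorem nsmul_some_eq_zero_iff_of_odd [W.IsElliptic] {n : ℕ} (hn : Odd n) {x y : F}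
    (h : W.Nonsingular x y) :
    n • Point.some x y h = 0 ↔ (W.preΨ' n).eval x = 0 := by
  rw [nsmul_some_eq_zero_iff n h, WeierstrassCurve.ΨSq_ofNat,
    if_neg (Nat.not_even_iff_odd.mpr hn), mul_one, eval_pow, sq_eq_zero_iff]

theorem mul_eval_ΨSq_eq_eval_Φ [W.IsElliptic] (n : ℤ) {x y x' y' : F} (h : W.Nonsingular x y)
    (h' : W.Nonsingular x' y') (he : n • Point.some x y h = Point.some x' y' h') :
    x' * (W.ΨSq n).eval x = (W.Φ n).eval x := by
  have := px_zsmul_mul_eval n h (by rw [he]; exact Point.some_ne_zero h')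
  rwa [he, px_some] at this

omit [DecidableEq F] in
theorem isCoprime_Φ_ΨSq [W.IsElliptic] (n : ℤ) : IsCoprime (W.Φ n) (W.ΨSq n) :=
  isCoprime_of_elliptic n

/-- Only finitely many points are killed by `n`, when `n` is nonzero in the field. -/
theorem finite_setOf_nsmul_eq_zero [W.IsElliptic] {n : ℕ} (hn : (n : F) ≠ 0) :
    {P : W.Point | n • P = 0}.Finite :=
  finite_nsmul_kernel hn

theorem natCard_setOf_nsmul_eq_zero [W.IsElliptic] [IsAlgClosed F] {n : ℕ} (hn : (n : F) ≠ 0) :
    Nat.card {P : W.Point // n • P = 0} = n ^ 2 :=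
  natCard_nsmul_kernel hn

end Field

section BaseChange

variable {R : Type*} [CommRing R] (W' : WeierstrassCurve.Affine R) (K : Type*) [Field K]
  [DecidableEq K] [Algebra R K]

lemma mem_torsionBy_iff_nsmul {n : ℕ} (P : (W'⁄K).Point) :
    P ∈ Submodule.torsionBy ℤ (W'⁄K).Point n ↔ n • P = 0 := by
  rw [Submodule.mem_torsionBy_iff, natCast_zsmul]

theorem finite_torsionBy {n : ℕ} (hn : (n : K) ≠ 0) :
    Finite (Submodule.torsionBy ℤ (W'⁄K).Point n) :=
  Set.Finite.to_subtype ((finite_nsmul_kernel (W := W'⁄K) hn).subset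
    fun P hP => (mem_torsionBy_iff_nsmul W' K P).mp hP)

theorem natCard_torsionBy [(W'⁄K).IsElliptic] [IsAlgClosed K] {n : ℕ} (hn : (n : K) ≠ 0) :
    Nat.card (Submodule.torsionBy ℤ (W'⁄K).Point n) = n ^ 2 := by
  rw [← natCard_nsmul_kernel (W := W'⁄K) hn]
  exact Nat.card_congr (Equiv.subtypeEquivRight fun P => mem_torsionBy_iff_nsmul W' K P)

theorem finrank_torsionBy [(W'⁄K).IsElliptic] [IsAlgClosed K] {p : ℕ} [Fact p.Prime]
    (hp : (p : K) ≠ 0) :
    Module.finrank (ZMod p) (Submodule.torsionBy ℤ (W'⁄K).Point p) = 2 := by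
  have := finite_torsionBy W' K hp
  have h := Module.natCard_eq_pow_finrank (K := ZMod p)
    (V := Submodule.torsionBy ℤ (W'⁄K).Point p)
  rw [natCard_torsionBy W' K hp, Nat.card_zmod] at h
  exact (Nat.pow_right_injective (Fact.out : p.Prime).two_le h).symm

theorem moduleFinite_torsionBy [(W'⁄K).IsElliptic] {p : ℕ} [Fact p.Prime] (hp : (p : K) ≠ 0) :
    Module.Finite (ZMod p) (Submodule.torsionBy ℤ (W'⁄K).Point p) := by
  have := finite_torsionBy W' K hp
  exact Module.Finite.of_finite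

theorem nontrivial_torsionBy [(W'⁄K).IsElliptic] [IsAlgClosed K] {n : ℕ} (hn : (n : K) ≠ 0)
    (hn1 : 1 < n) :
    Nontrivial (Submodule.torsionBy ℤ (W'⁄K).Point n) := by
  have := finite_torsionBy W' K hn
  rw [← Finite.one_lt_card_iff_nontrivial, natCard_torsionBy W' K hn]
  exact Nat.one_lt_pow two_ne_zero hn1

theorem exists_preΨ'_root_eq [(W'⁄K).IsElliptic] [IsAlgClosed K] {n : ℕ} (hn : Odd n) (x : K)
    (hx : ((W'⁄K).preΨ' n).eval x = 0) :
    ∃ (y : K) (h : (W'⁄K).Nonsingular x y),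
      Point.some x y h ∈ Submodule.torsionBy ℤ (W'⁄K).Point n := by
  obtain ⟨y, hy⟩ := exists_nonsingular (W'⁄K) x
  exact ⟨y, hy, (mem_torsionBy_iff_nsmul W' K _).mpr
    ((nsmul_some_eq_zero_iff_of_odd hn hy).mpr hx)⟩

end BaseChange

section Rat

theorem isElliptic_map_int (W : WeierstrassCurve ℤ) (hΔ : W.Δ ≠ 0) :
    (W.map (Int.castRingHom ℚ)).IsElliptic := by
  rw [WeierstrassCurve.isElliptic_iff, WeierstrassCurve.map_Δ, isUnit_iff_ne_zero]
  simpa using hΔ

theorem isElliptic_baseChange_map (W : WeierstrassCurve ℤ) (hΔ : W.Δ ≠ 0) (K : Type*) [Field K]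
    [Algebra ℚ K] : ((W.map (Int.castRingHom ℚ))⁄K).IsElliptic := by
  have := isElliptic_map_int W hΔ
  exact inferInstanceAs (((W.map (Int.castRingHom ℚ)).map (algebraMap ℚ K)).IsElliptic)

theorem natCard_torsionBy_rat (W : WeierstrassCurve ℚ) [W.IsElliptic] {n : ℕ} (hn : n ≠ 0) :
    Nat.card (Submodule.torsionBy ℤ (W⁄(AlgebraicClosure ℚ)).Point n) = n ^ 2 := by
  have : (W⁄(AlgebraicClosure ℚ)).IsElliptic :=
    inferInstanceAs ((W.map (algebraMap ℚ (AlgebraicClosure ℚ))).IsElliptic)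
  exact natCard_torsionBy W (AlgebraicClosure ℚ) (by exact_mod_cast hn)

theorem galoisFactorsThroughFiniteLevel (W : WeierstrassCurve ℚ) [W.IsElliptic] {n : ℕ}
    (hn : n ≠ 0) :
    GaloisFactorsThroughFiniteLevel
      (WeierstrassCurve.Affine.Point.galoisRepModuleEnd (K := AlgebraicClosure ℚ) ℚ W n) := by
  have : (W⁄(AlgebraicClosure ℚ)).IsElliptic :=
    inferInstanceAs ((W.map (algebraMap ℚ (AlgebraicClosure ℚ))).IsElliptic)
  set T := Submodule.torsionBy ℤ (W⁄(AlgebraicClosure ℚ)).Point n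
  have : Finite T := finite_torsionBy W (AlgebraicClosure ℚ) (by exact_mod_cast hn)
  let fx : T → AlgebraicClosure ℚ := fun P =>
    match P.1 with
    | .zero => 0
    | .some x _ _ => x
  let fy : T → AlgebraicClosure ℚ := fun P =>
    match P.1 with
    | .zero => 0
    | .some _ y _ => y
  refine ⟨IntermediateField.adjoin ℚ (Set.range fx ∪ Set.range fy), ?_, fun σ hσ => ?_⟩
  · have : Finite (Set.range fx ∪ Set.range fy : Set (AlgebraicClosure ℚ)) :=
      ((Set.finite_range fx).union (Set.finite_range fy)).to_subtype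
    exact IntermediateField.finiteDimensional_adjoin fun z _ =>
      ((AlgebraicClosure.isAlgebraic ℚ).isAlgebraic z).isIntegral
  · refine LinearMap.ext fun P => Subtype.ext ?_
    show σ • (P : (W⁄(AlgebraicClosure ℚ)).Point) = (P : (W⁄(AlgebraicClosure ℚ)).Point)
    have hfx := hσ (fx P) (IntermediateField.subset_adjoin _ _ (Or.inl ⟨P, rfl⟩))
    have hfy := hσ (fy P) (IntermediateField.subset_adjoin _ _ (Or.inr ⟨P, rfl⟩))
    obtain ⟨P, hP⟩ := P
    match P with
    | .zero => rfl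
    | .some x y h =>
      simp only [fx, fy] at hfx hfy
      rw [Point.algEquiv_smul_def, Point.map_some, Point.some.injEq]
      exact ⟨hfx, hfy⟩

theorem natCard_torsionBy_int (W : WeierstrassCurve ℤ) (hΔ : W.Δ ≠ 0) {n : ℕ} (hn : n ≠ 0) :
    Nat.card (Submodule.torsionBy ℤ
      ((W.map (Int.castRingHom ℚ))⁄(AlgebraicClosure ℚ)).Point n) = n ^ 2 := by
  have := isElliptic_map_int W hΔ
  exact natCard_torsionBy_rat _ hn

theorem galoisFactorsThroughFiniteLevel_int (W : WeierstrassCurve ℤ) (hΔ : W.Δ ≠ 0) {n : ℕ}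
    (hn : n ≠ 0) :
    GaloisFactorsThroughFiniteLevel
      (WeierstrassCurve.Affine.Point.galoisRepModuleEnd (K := AlgebraicClosure ℚ) ℚ
        (W.map (Int.castRingHom ℚ)) n) := by
  have := isElliptic_map_int W hΔ
  exact galoisFactorsThroughFiniteLevel _ hn

end Rat

end Fermat.Agent.EC.Torsion
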