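import Mathlib

/-!
# The x-coordinates of `P + Q` and `P - Q`

The sum and product of `x(P + Q)` and `x(P - Q)` as rational functions in `x(P)`, `x(Q)`, and the
fact that `WeierstrassCurve.addSubMap` computes them in all degenerate cases.
-/

set_option autoImplicit false

open Polynomial

namespace Fermat.Agent.EC.Torsion

open WeierstrassCurve.Affine (Point)

section Formulas

variable {F : Type*} [Field F] [DecidableEq F] (W : WeierstrassCurve.Affine F)

/-- `(a - b)² (x(P+Q) + x(P-Q))` for `a = x(P)`, `b = x(Q)`. -/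
def sumForm (a b : F) : F :=
  2 * a * b * (a + b) + W.b₂ * a * b + W.b₄ * (a + b) + W.b₆

/-- `(a - b)² x(P+Q) x(P-Q)` for `a = x(P)`, `b = x(Q)`. -/
def prodForm (a b : F) : F :=
  a ^ 2 * b ^ 2 - W.b₄ * a * b - W.b₆ * (a + b) - W.b₈

/-- The symmetric triquadratic form vanishing at `x(P), x(Q), x(P ± Q)`. -/
def biq (a b c : F) : F :=
  (a - b) ^ 2 * c ^ 2 - sumForm W a b * c + prodForm W a b

omit [DecidableEq F] in
lemma biq_swap (a b c : F) : biq W a b c = biq W a c b := by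
  simp only [biq, sumForm, prodForm]; ring

omit [DecidableEq F] in
lemma biq_comm (a b c : F) : biq W a b c = biq W b a c := by
  simp only [biq, sumForm, prodForm]; ring

omit [DecidableEq F] in
lemma eval_Ψ₂Sq (x : F) :
    W.Ψ₂Sq.eval x = 4 * x ^ 3 + W.b₂ * x ^ 2 + 2 * W.b₄ * x + W.b₆ := by
  simp [WeierstrassCurve.Ψ₂Sq]

omit [DecidableEq F] in
lemma eval_Φ_two (x : F) :
    (W.Φ 2).eval x = x ^ 4 - W.b₄ * x ^ 2 - 2 * W.b₆ * x - W.b₈ := by
  simp [WeierstrassCurve.Φ_two]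

omit [DecidableEq F] in
lemma sumForm_self (x : F) : sumForm W x x = W.Ψ₂Sq.eval x := by
  rw [eval_Ψ₂Sq, sumForm]; ring

omit [DecidableEq F] in
lemma prodForm_self (x : F) : prodForm W x x = (W.Φ 2).eval x := by
  rw [eval_Φ_two, prodForm]; ring

lemma sub_sq_mul_addX_add {x₁ y₁ x₂ y₂ : F} (h₁ : W.Equation x₁ y₁) (h₂ : W.Equation x₂ y₂)
    (hx : x₁ ≠ x₂) :
    (x₁ - x₂) ^ 2 * (W.addX x₁ x₂ (W.slope x₁ x₂ y₁ y₂) +
      W.addX x₁ x₂ (W.slope x₁ x₂ y₁ (W.negY x₂ y₂))) = sumForm W x₁ x₂ := by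
  rw [WeierstrassCurve.Affine.equation_iff] at h₁ h₂
  have hd : x₁ - x₂ ≠ 0 := sub_ne_zero.mpr hx
  simp only [WeierstrassCurve.Affine.slope_of_X_ne hx, WeierstrassCurve.Affine.addX,
    WeierstrassCurve.Affine.negY, sumForm, WeierstrassCurve.b₂, WeierstrassCurve.b₄,
    WeierstrassCurve.b₆]
  field_simp
  linear_combination 2 * h₁ + 2 * h₂

lemma sub_sq_mul_addX_mul {x₁ y₁ x₂ y₂ : F} (h₁ : W.Equation x₁ y₁) (h₂ : W.Equation x₂ y₂)
    (hx : x₁ ≠ x₂) :
    (x₁ - x₂) ^ 2 * (W.addX x₁ x₂ (W.slope x₁ x₂ y₁ y₂) *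
      W.addX x₁ x₂ (W.slope x₁ x₂ y₁ (W.negY x₂ y₂))) = prodForm W x₁ x₂ := by
  rw [WeierstrassCurve.Affine.equation_iff] at h₁ h₂
  have hd : x₁ - x₂ ≠ 0 := sub_ne_zero.mpr hx
  simp only [WeierstrassCurve.Affine.slope_of_X_ne hx, WeierstrassCurve.Affine.addX,
    WeierstrassCurve.Affine.negY, prodForm, WeierstrassCurve.b₄, WeierstrassCurve.b₆,
    WeierstrassCurve.b₈]
  field_simp
  linear_combination
    (2 * (x₁ ^ 3 - x₂ ^ 3) + (W.a₁ ^ 2 + 4 * W.a₂) * (x₁ - x₂) * x₂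
        + (2 * W.a₄ + W.a₁ * W.a₃) * (x₁ - x₂) - 2 * (x₁ + x₂) * (x₁ - x₂) ^ 2
        + (y₁ ^ 2 + W.a₁ * x₁ * y₁ + W.a₃ * y₁
            - (x₁ ^ 3 + W.a₂ * x₁ ^ 2 + W.a₄ * x₁ + W.a₆))
        - 2 * (y₂ ^ 2 + W.a₁ * x₂ * y₂ + W.a₃ * y₂
            - (x₂ ^ 3 + W.a₂ * x₂ ^ 2 + W.a₄ * x₂ + W.a₆))) * h₁ +
    (2 * (x₂ ^ 3 - x₁ ^ 3) - (W.a₁ ^ 2 + 4 * W.a₂) * (x₁ - x₂) * x₁
        - (2 * W.a₄ + W.a₁ * W.a₃) * (x₁ - x₂) - 2 * (x₁ + x₂) * (x₁ - x₂) ^ 2
        + (y₂ ^ 2 + W.a₁ * x₂ * y₂ + W.a₃ * y₂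
            - (x₂ ^ 3 + W.a₂ * x₂ ^ 2 + W.a₄ * x₂ + W.a₆))) * h₂

lemma addX_self_mul_Ψ₂Sq {x y : F} (h : W.Equation x y) (hy : y ≠ W.negY x y) :
    W.addX x x (W.slope x x y y) * W.Ψ₂Sq.eval x = (W.Φ 2).eval x := by
  rw [WeierstrassCurve.Affine.equation_iff] at h
  have hl : W.slope x x y y * (y - W.negY x y) =
      3 * x ^ 2 + 2 * W.a₂ * x + W.a₄ - W.a₁ * y := by
    rw [WeierstrassCurve.Affine.slope_of_Y_ne rfl hy, div_mul_cancel₀ _ (sub_ne_zero.mpr hy)]
  generalize W.slope x x y y = l at hl ⊢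
  rw [eval_Ψ₂Sq, eval_Φ_two]
  simp only [WeierstrassCurve.Affine.addX, WeierstrassCurve.Affine.negY, WeierstrassCurve.b₂,
    WeierstrassCurve.b₄, WeierstrassCurve.b₆, WeierstrassCurve.b₈] at hl ⊢
  linear_combination (-4 * (l ^ 2 + W.a₁ * l - W.a₂ - x - x)
      - (W.a₁ ^ 2 + 4 * W.a₂ + 8 * x)) * h +
    (l * (y - (-y - W.a₁ * x - W.a₃)) + (3 * x ^ 2 + 2 * W.a₂ * x + W.a₄ - W.a₁ * y)
      + W.a₁ * (y - (-y - W.a₁ * x - W.a₃))) * hl

omit [DecidableEq F] in
lemma eval_Φ_two_ne_zero {x y : F} (h : W.Nonsingular x y) (hy : y = W.negY x y) :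
    (W.Φ 2).eval x ≠ 0 := by
  obtain ⟨he, hne⟩ := (WeierstrassCurve.Affine.nonsingular_iff ..).mp h
  rw [WeierstrassCurve.Affine.equation_iff] at he
  have hX : W.a₁ * y ≠ 3 * x ^ 2 + 2 * W.a₂ * x + W.a₄ :=
    hne.resolve_right (fun h' => h' hy)
  simp only [WeierstrassCurve.Affine.negY] at hy
  intro h0
  refine hX (sub_eq_zero.mp (pow_eq_zero_iff two_ne_zero |>.mp ?_))
  rw [eval_Φ_two] at h0
  simp only [WeierstrassCurve.b₄, WeierstrassCurve.b₆, WeierstrassCurve.b₈] at h0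
  linear_combination h0 - (W.a₁ ^ 2 + 4 * W.a₂ + 8 * x) * he +
    (-W.a₁ * (3 * x ^ 2 + 2 * W.a₂ * x + W.a₄ - W.a₁ * y)
      + (W.a₂ + 2 * x) * (y - (-y - W.a₁ * x - W.a₃))) * hy

omit [DecidableEq F] in
lemma sq_evalEval_ψ₂ {x y : F} (h : W.Equation x y) :
    W.ψ₂.evalEval x y ^ 2 = W.Ψ₂Sq.eval x := by
  rw [WeierstrassCurve.Affine.equation_iff] at h
  rw [WeierstrassCurve.ψ₂, WeierstrassCurve.Affine.evalEval_polynomialY, eval_Ψ₂Sq]
  simp only [WeierstrassCurve.b₂, WeierstrassCurve.b₄, WeierstrassCurve.b₆]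
  linear_combination 4 * h

omit [DecidableEq F] in
lemma evalEval_ψ₂_eq_zero_iff (x y : F) :
    W.ψ₂.evalEval x y = 0 ↔ y = W.negY x y := by
  rw [WeierstrassCurve.ψ₂, WeierstrassCurve.Affine.evalEval_polynomialY,
    WeierstrassCurve.Affine.negY]
  constructor <;> intro h <;> linear_combination h

end Formulas

section Points

variable {F : Type*} [Field F] {W : WeierstrassCurve.Affine F}

/-- The x-coordinate of a point, with junk value `1` at infinity. -/
noncomputable def px (P : W.Point) : F :=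
  P.xRep 0

@[simp] lemma px_some {x y : F} (h : W.Nonsingular x y) : px (Point.some x y h) = x := by
  simp [px]

@[simp] lemma px_neg (P : W.Point) : px (-P) = px P := by
  simp [px]

lemma xRep_of_ne_zero {P : W.Point} (hP : P ≠ 0) : P.xRep = ![px P, 1] := by
  match P, hP with
  | .zero, hP => exact absurd rfl hP
  | .some x y h, _ => simp

lemma eq_or_eq_neg_of_px_eq {P Q : W.Point} (hP : P ≠ 0) (hQ : Q ≠ 0) (h : px P = px Q) :
    P = Q ∨ P = -Q :=
  Point.eq_or_eq_neg_of_xRep_eq_xRep <| by rw [xRep_of_ne_zero hP, xRep_of_ne_zero hQ, h]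

variable [DecidableEq F]

lemma px_add_sub {P Q : W.Point} (hP : P ≠ 0) (hQ : Q ≠ 0) (hne : px P ≠ px Q) :
    P + Q ≠ 0 ∧ P - Q ≠ 0 ∧
      (px P - px Q) ^ 2 * (px (P + Q) + px (P - Q)) = sumForm W (px P) (px Q) ∧
      (px P - px Q) ^ 2 * (px (P + Q) * px (P - Q)) = prodForm W (px P) (px Q) := by
  match P, Q, hP, hQ with
  | .zero, _, hP, _ => exact absurd rfl hP
  | _, .zero, _, hQ => exact absurd rfl hQ
  | .some x₁ y₁ h₁, .some x₂ y₂ h₂, _, _ =>
    simp only [px_some] at hne ⊢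
    rw [sub_eq_add_neg, Point.neg_some, Point.add_of_X_ne hne, Point.add_of_X_ne hne]
    refine ⟨Point.some_ne_zero _, Point.some_ne_zero _, ?_, ?_⟩ <;> simp only [px_some]
    · exact sub_sq_mul_addX_add W h₁.1 h₂.1 hne
    · exact sub_sq_mul_addX_mul W h₁.1 h₂.1 hne

lemma biq_px {P Q : W.Point} (hP : P ≠ 0) (hQ : Q ≠ 0) (hne : px P ≠ px Q) (c : F) :
    biq W (px P) (px Q) c =
      (px P - px Q) ^ 2 * (c - px (P + Q)) * (c - px (P - Q)) := by
  obtain ⟨-, -, hs, hp⟩ := px_add_sub hP hQ hne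
  rw [biq, ← hs, ← hp]
  ring

lemma two_nsmul_some_eq_zero_iff {x y : F} (h : W.Nonsingular x y) :
    (2 : ℕ) • Point.some x y h = 0 ↔ W.ψ₂.evalEval x y = 0 := by
  rw [evalEval_ψ₂_eq_zero_iff, two_nsmul, add_eq_zero_iff_eq_neg, Point.neg_some, Point.some.injEq]
  exact and_iff_right rfl

lemma px_two_nsmul_mul {P : W.Point} (hP : P ≠ 0) (h2 : (2 : ℕ) • P ≠ 0) :
    px ((2 : ℕ) • P) * W.Ψ₂Sq.eval (px P) = (W.Φ 2).eval (px P) := by
  match P, hP with
  | .zero, hP => exact absurd rfl hP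
  | .some x y h, _ =>
    have hy : y ≠ W.negY x y := by
      rwa [Ne, two_nsmul_some_eq_zero_iff, evalEval_ψ₂_eq_zero_iff] at h2
    rw [two_nsmul, Point.add_self_of_Y_ne hy]
    simp only [px_some]
    exact addX_self_mul_Ψ₂Sq W h.1 hy

lemma biq_self_px {P : W.Point} (hP : P ≠ 0) (h2 : (2 : ℕ) • P ≠ 0) (c : F) :
    biq W (px P) (px P) c = W.Ψ₂Sq.eval (px P) * (px ((2 : ℕ) • P) - c) := by
  rw [biq, sumForm_self, prodForm_self, ← px_two_nsmul_mul hP h2]
  ring

/-- `addSubMap` computes the x-coordinates of `P ± Q`, without exception. -/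
theorem exists_eval_addSubMap_eq_smul_sym2x (P Q : W.Point) :
    ∃ c : F, c ≠ 0 ∧
      (fun i => MvPolynomial.eval (P.sym2x Q) (WeierstrassCurve.addSubMap W i)) =
        c • (P + Q).sym2x (P - Q) := by
  match P, Q with
  | .zero, .zero =>
    refine ⟨1, one_ne_zero, ?_⟩
    rw [← Point.zero_def]
    ext i
    fin_cases i <;> simp [WeierstrassCurve.addSubMap]
  | .zero, .some x y h =>
    refine ⟨1, one_ne_zero, ?_⟩
    rw [← Point.zero_def, zero_add, zero_sub, Point.sym2x_neg_right]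
    ext i
    fin_cases i <;> simp [WeierstrassCurve.addSubMap, sq, two_mul]
  | .some x y h, .zero =>
    refine ⟨1, one_ne_zero, ?_⟩
    rw [← Point.zero_def, add_zero, sub_zero]
    ext i
    fin_cases i <;> simp [WeierstrassCurve.addSubMap, sq, two_mul]
  | .some x y h, .some x' y' h' =>
    by_cases hx : x = x'
    · subst hx
      have key : ∃ c : F, c ≠ 0 ∧ (fun i => MvPolynomial.eval
          ((Point.some x y h).sym2x (Point.some x y h)) (WeierstrassCurve.addSubMap W i)) =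
            c • ((2 : ℕ) • Point.some x y h).sym2x 0 := by
        by_cases h2 : (2 : ℕ) • Point.some x y h = 0
        · refine ⟨(W.Φ 2).eval x, eval_Φ_two_ne_zero W h ?_, ?_⟩
          · rwa [two_nsmul_some_eq_zero_iff, evalEval_ψ₂_eq_zero_iff] at h2
          · have h0 : W.Ψ₂Sq.eval x = 0 := by
              rw [← sq_evalEval_ψ₂ W h.1, (two_nsmul_some_eq_zero_iff h).mp h2]
              ring
            rw [h2, Point.sym2x_zero_zero, Point.sym2x_some_some]
            rw [eval_Ψ₂Sq] at h0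
            ext i
            fin_cases i <;> simp [WeierstrassCurve.addSubMap] <;>
              first
                | ring1
                | linear_combination h0
        · refine ⟨W.Ψ₂Sq.eval x, ?_, ?_⟩
          · rw [← sq_evalEval_ψ₂ W h.1]
            exact pow_ne_zero 2 ((two_nsmul_some_eq_zero_iff h).not.mp h2)
          · have hd := px_two_nsmul_mul (Point.some_ne_zero h) h2
            rw [px_some, eval_Φ_two, eval_Ψ₂Sq] at hd
            rw [eval_Ψ₂Sq, show ((2 : ℕ) • Point.some x y h).sym2x 0 =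
                ![px ((2 : ℕ) • Point.some x y h), 1, 0] by
              simp [Point.sym2x, xRep_of_ne_zero h2], Point.sym2x_some_some]
            ext i
            fin_cases i <;> simp [WeierstrassCurve.addSubMap] <;>
              first
                | ring1
                | linear_combination -hd
      obtain ⟨c, hc, hc'⟩ := key
      refine ⟨c, hc, ?_⟩
      rcases Point.X_eq_iff (h₁ := h) (h₂ := h') |>.mp rfl with e | e
      · rw [← e, sub_self, ← two_nsmul, hc']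
      · rw [show Point.some x y' h' = -Point.some x y h by rw [e, neg_neg],
          Point.sym2x_neg_right, add_neg_cancel, sub_neg_eq_add, ← two_nsmul, hc',
          Point.sym2x_comm]
    · obtain ⟨hs0, hd0, hs, hp⟩ := px_add_sub (Point.some_ne_zero h) (Point.some_ne_zero h')
        (by simpa using hx)
      refine ⟨(x - x') ^ 2, pow_ne_zero 2 (sub_ne_zero.mpr hx), ?_⟩
      simp only [px_some, sumForm, prodForm] at hs hp
      ext i
      rw [show (Point.some x y h + Point.some x' y' h').sym2x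
          (Point.some x y h - Point.some x' y' h') =
          ![px (Point.some x y h + Point.some x' y' h') *
              px (Point.some x y h - Point.some x' y' h'),
            px (Point.some x y h + Point.some x' y' h') +
              px (Point.some x y h - Point.some x' y' h'), 1] by
        simp [Point.sym2x, xRep_of_ne_zero hs0, xRep_of_ne_zero hd0]]
      fin_cases i <;> simp [WeierstrassCurve.addSubMap]
      · linear_combination -hp
      · linear_combination -hs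
      · ring

end Points

end Fermat.Agent.EC.Torsion
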