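import Fermat.Agent.EC.Torsion.Mult

/-!
# Counting the points killed by `n`
-/

set_option autoImplicit false

open Polynomial

namespace Fermat.Agent.EC.Torsion

open WeierstrassCurve.Affine (Point)

variable {F : Type*} [Field F] [DecidableEq F] {W : WeierstrassCurve.Affine F}

omit [DecidableEq F] in
lemma finite_setOf_px_mem {s : Set F} (hs : s.Finite) :
    {P : W.Point | P ≠ 0 ∧ px P ∈ s}.Finite := by
  classical
  refine (hs.biUnion (t := fun a => {P : W.Point | P ≠ 0 ∧ px P = a}) fun a _ => ?_).subset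
    fun P hP => Set.mem_biUnion hP.2 ⟨hP.1, rfl⟩
  by_cases hA : {P : W.Point | P ≠ 0 ∧ px P = a}.Nonempty
  · obtain ⟨P₀, h₀, hx₀⟩ := hA
    exact (Set.toFinite {P₀, -P₀}).subset fun P hP =>
      eq_or_eq_neg_of_px_eq hP.1 h₀ (hP.2.trans hx₀.symm)
  · rw [Set.not_nonempty_iff_eq_empty.mp hA]
    exact Set.finite_empty

variable [W.IsElliptic]

omit [WeierstrassCurve.IsElliptic W] in
lemma nsmul_eq_zero_iff_eval (n : ℕ) {P : W.Point} (hP : P ≠ 0) :
    n • P = 0 ↔ (W.ΨSq n).eval (px P) = 0 := by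
  match P, hP with
  | .zero, hP => exact absurd rfl hP
  | .some x y h, _ => rw [px_some, ← natCast_zsmul, zsmul_eq_zero_iff_eval]

omit [WeierstrassCurve.IsElliptic W] in
lemma px_nsmul_mul_eval (n : ℕ) {P : W.Point} (hP : P ≠ 0) (hn : n • P ≠ 0) :
    px (n • P) * (W.ΨSq n).eval (px P) = (W.Φ n).eval (px P) := by
  match P, hP with
  | .zero, hP => exact absurd rfl hP
  | .some x y h, _ =>
    rw [← natCast_zsmul] at hn
    rw [px_some, ← natCast_zsmul, px_zsmul_mul_eval _ h hn]

omit [WeierstrassCurve.IsElliptic W] in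
lemma finite_nsmul_kernel {n : ℕ} (hn : (n : F) ≠ 0) : {P : W.Point | n • P = 0}.Finite := by
  have hS : W.ΨSq n ≠ 0 := W.ΨSq_ne_zero (by exact_mod_cast hn)
  refine ((Set.finite_singleton (0 : W.Point)).union
    (finite_setOf_px_mem (finite_setOfPred_isRoot hS))).subset fun P hP => ?_
  by_cases h0 : P = 0
  · exact Or.inl h0
  · exact Or.inr ⟨h0, (nsmul_eq_zero_iff_eval n h0).mp hP⟩

omit [DecidableEq F] in
lemma Ψ₂Sq_ne_zero_of_elliptic : W.Ψ₂Sq ≠ 0 := by
  intro h0
  have hc : ∀ i, W.Ψ₂Sq.coeff i = 0 := fun i => by rw [h0, coeff_zero]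
  have h3 := hc 3
  have h2 := hc 2
  have h00 := hc 0
  simp [WeierstrassCurve.Ψ₂Sq, coeff_X, coeff_C] at h3 h2 h00
  have two : (2 : F) = 0 := by
    have : (2 : F) * 2 = 0 := by linear_combination h3
    simpa using this
  refine W.isUnit_Δ.ne_zero ?_
  rw [WeierstrassCurve.Δ, h2, h00]
  linear_combination (-4 * W.b₄ ^ 3) * two

/-- For all but finitely many `c`, the polynomial `Φ_n - c ΨSq_n` has `n ^ 2` distinct roots and
`c` is not the x-coordinate of a point of order two. -/
lemma exists_separable_fiber [IsAlgClosed F] {n : ℕ} (hn : (n : F) ≠ 0) :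
    ∃ c : F, W.Ψ₂Sq.eval c ≠ 0 ∧
      (W.Φ n - C c * W.ΨSq n).roots.Nodup ∧
      Multiset.card (W.Φ n - C c * W.ΨSq n).roots = n ^ 2 := by
  classical
  have hn0 : n ≠ 0 := fun h => hn (by simp [h])
  have hdN : (W.Φ n).natDegree = n ^ 2 := by simp [W.natDegree_Φ]
  have hN' : derivative (W.Φ n) ≠ 0 := fun h => by
    have hc := congrArg (fun p => coeff p (n ^ 2 - 1)) h
    have h1 : 1 ≤ n ^ 2 := Nat.one_le_pow _ _ (Nat.pos_of_ne_zero hn0)
    simp only [coeff_derivative, coeff_zero, Nat.sub_add_cancel h1] at hc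
    have hco := W.coeff_Φ (n : ℤ)
    rw [Int.natAbs_natCast] at hco
    rw [hco, one_mul, ← Nat.cast_succ, Nat.succ_eq_add_one, Nat.sub_add_cancel h1] at hc
    simp at hc
    exact hn hc
  have hWr : derivative (W.Φ n) * W.ΨSq n - W.Φ n * derivative (W.ΨSq n) ≠ 0 := fun h => by
    have hdvd : W.Φ n ∣ derivative (W.Φ n) * W.ΨSq n :=
      ⟨derivative (W.ΨSq n), sub_eq_zero.mp h⟩
    have := natDegree_le_of_dvd ((isCoprime_of_elliptic (W := W) n).dvd_of_dvd_mul_right hdvd) hN'
    have hlt := natDegree_derivative_lt (p := W.Φ n)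
      (by rw [hdN]; exact pow_ne_zero 2 hn0)
    omega
  obtain ⟨c, hc⟩ := (((finite_setOfPred_isRoot hWr).image
      fun a => (W.Φ n).eval a / (W.ΨSq n).eval a).union
    (finite_setOfPred_isRoot (Ψ₂Sq_ne_zero_of_elliptic (W := W)))).exists_notMem
  simp only [Set.mem_union, Set.mem_image, Set.mem_ofPred_eq, not_or, not_exists, not_and,
    IsRoot.def] at hc
  refine ⟨c, hc.2, ?_, ?_⟩
  · refine nodup_roots (separable_def _ |>.mpr ?_)
    refine (Polynomial.isCoprime_iff_aeval_ne_zero_of_isAlgClosed F F _ _).mpr fun a => ?_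
    by_contra hne
    simp only [coe_aeval_eq_eval, eval_sub, eval_mul, eval_C, derivative_sub,
      derivative_C_mul, ne_eq, not_or, not_not] at hne
    obtain ⟨h1, h2⟩ := hne
    obtain ⟨y, hy⟩ := exists_nonsingular W a
    have hS : (W.ΨSq n).eval a ≠ 0 := fun hS =>
      not_eval_Φ_and_ΨSq_eq_zero (n : ℤ) hy ⟨by linear_combination h1 + c * hS, hS⟩
    refine hc.1 a ?_ ?_
    · simp only [eval_sub, eval_mul]
      linear_combination (W.ΨSq n).eval a * h2 - (derivative (W.ΨSq n)).eval a * h1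
    · rw [div_eq_iff hS]
      linear_combination h1
  · rw [IsAlgClosed.card_roots_eq_natDegree, natDegree_sub_eq_left_of_natDegree_lt, hdN]
    refine (natDegree_C_mul_le _ _).trans_lt ?_
    rw [hdN]
    have := W.natDegree_ΨSq_le (n : ℤ)
    rw [Int.natAbs_natCast] at this
    have h1 : 1 ≤ n ^ 2 := Nat.one_le_pow _ _ (Nat.pos_of_ne_zero hn0)
    omega

/-- Over an algebraically closed field exactly `n ^ 2` points are killed by
`n`, if `n` is nonzero. -/
theorem natCard_nsmul_kernel [IsAlgClosed F] {n : ℕ} (hn : (n : F) ≠ 0) :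
    Nat.card {P : W.Point // n • P = 0} = n ^ 2 := by
  classical
  obtain ⟨c, hc2, hnd, hcard⟩ := exists_separable_fiber (W := W) hn
  set f := W.Φ n - C c * W.ΨSq n with hf
  have hf0 : f ≠ 0 := by
    intro h0
    have hn0 : n ≠ 0 := fun h => hn (by simp [h])
    rw [h0, roots_zero, Multiset.card_zero] at hcard
    exact pow_ne_zero 2 hn0 hcard.symm
  obtain ⟨yc, hQ⟩ := exists_nonsingular W c
  set Q := Point.some c yc hQ with hQdef
  have hQ2 : Q ≠ -Q := by
    rw [← sq_evalEval_ψ₂ W hQ.1] at hc2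
    intro he
    refine pow_ne_zero_iff two_ne_zero |>.mp hc2 ((two_nsmul_some_eq_zero_iff hQ).mp ?_)
    rw [two_nsmul, add_eq_zero_iff_eq_neg]
    exact he
  have hne : ∀ R : W.Point, n • R = Q → R ≠ 0 := fun R hR h0 => by
    rw [h0, smul_zero] at hR
    exact Point.some_ne_zero hQ hR.symm
  have hroot : ∀ R : W.Point, n • R = Q → f.IsRoot (px R) := fun R hR => by
    have h1 := px_nsmul_mul_eval n (hne R hR) (by rw [hR]; exact Point.some_ne_zero hQ)
    rw [hR, hQdef, px_some] at h1
    simp only [hf, IsRoot.def, eval_sub, eval_mul, eval_C]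
    linear_combination -h1
  let g : {R : W.Point // n • R = Q} → {a : F // a ∈ f.roots.toFinset} := fun R =>
    ⟨px R.1, by simpa [mem_roots hf0] using hroot R.1 R.2⟩
  have hg : Function.Bijective g := by
    refine ⟨fun R R' he => Subtype.ext ?_, fun a => ?_⟩
    · rcases eq_or_eq_neg_of_px_eq (hne _ R.2) (hne _ R'.2) (congrArg Subtype.val he) with e | e
      · exact e
      · exfalso
        have := R.2
        rw [e, smul_neg, R'.2] at this
        exact hQ2 this.symm
    · obtain ⟨a, ha⟩ := a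
      obtain ⟨b, hR⟩ := exists_nonsingular W a
      have ha' : (W.Φ n).eval a = c * (W.ΨSq n).eval a := by
        have : f.IsRoot a := (mem_roots hf0).mp (Multiset.mem_toFinset.mp ha)
        simp only [IsRoot.def, hf, eval_sub, eval_mul, eval_C] at this
        linear_combination this
      have hS : (W.ΨSq n).eval a ≠ 0 := fun hS =>
        not_eval_Φ_and_ΨSq_eq_zero (n : ℤ) hR ⟨by rw [ha', hS, mul_zero], hS⟩
      have hnR : n • Point.some a b hR ≠ 0 := by
        rwa [Ne, nsmul_eq_zero_iff_eval n (Point.some_ne_zero hR), px_some]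
      have hx : px (n • Point.some a b hR) = px Q := by
        have h1 := px_nsmul_mul_eval n (Point.some_ne_zero hR) hnR
        rw [px_some, ha'] at h1
        rw [hQdef, px_some]
        exact mul_right_cancel₀ hS h1
      rcases eq_or_eq_neg_of_px_eq hnR (Point.some_ne_zero hQ) hx with e | e
      · exact ⟨⟨_, e⟩, Subtype.ext (px_some hR)⟩
      · exact ⟨⟨-Point.some a b hR, by rw [smul_neg, e, neg_neg]⟩,
          Subtype.ext ((px_neg _).trans (px_some hR))⟩
  have hF : Nat.card {R : W.Point // n • R = Q} = n ^ 2 := by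
    rw [Nat.card_eq_of_bijective g hg, Nat.card_eq_finsetCard,
      Multiset.toFinset_card_of_nodup hnd, hcard]
  obtain ⟨⟨R₀, hR₀⟩⟩ : Nonempty {R : W.Point // n • R = Q} := by
    refine (Nat.card_pos_iff.mp ?_).1
    rw [hF]
    exact pow_pos (Nat.pos_of_ne_zero fun h => hn (by simp [h])) 2
  rw [← hF]
  exact Nat.card_congr
    { toFun := fun P => ⟨P.1 + R₀, by rw [smul_add, P.2, hR₀, zero_add]⟩
      invFun := fun R => ⟨R.1 - R₀, by rw [smul_sub, R.2, hR₀, sub_self]⟩
      left_inv := fun P => by simp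
      right_inv := fun R => by simp }

end Fermat.Agent.EC.Torsion
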