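import Fermat.Agent.EC.Torsion.Universal

/-!
# The multiplication formula `x(nP) = Φ_n(x) / ΨSq_n(x)` on an elliptic curve
-/

set_option autoImplicit false

open Polynomial

namespace Fermat.Agent.EC.Torsion

open WeierstrassCurve.Affine (Point)

variable {F : Type*} [Field F] [DecidableEq F] {W : WeierstrassCurve.Affine F} [W.IsElliptic]

omit [WeierstrassCurve.IsElliptic W] in
lemma step_exists_eval_eq_smul_xRep {x y : F} (h : W.Nonsingular x y) {n : ℕ} (hn : 1 ≤ n)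
    (hm : ∃ c : F, c ≠ 0 ∧
      ![(W.Φ ((n : ℤ) - 1)).eval x, (W.ΨSq ((n : ℤ) - 1)).eval x] =
        c • (((n : ℤ) - 1) • Point.some x y h).xRep)
    (h0 : ∃ c : F, c ≠ 0 ∧
      ![(W.Φ n).eval x, (W.ΨSq n).eval x] = c • ((n : ℤ) • Point.some x y h).xRep) :
    ∃ c : F, c ≠ 0 ∧
      ![(W.Φ ((n : ℤ) + 1)).eval x, (W.ΨSq ((n : ℤ) + 1)).eval x] =
        c • (((n : ℤ) + 1) • Point.some x y h).xRep := by
  obtain ⟨cm, hcm, hm⟩ := hm
  obtain ⟨c₀, hc₀, h0⟩ := h0
  obtain ⟨d, hd, he⟩ :=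
    exists_eval_addSubMap_eq_smul_sym2x ((n : ℤ) • Point.some x y h) (Point.some x y h)
  rw [← add_one_zsmul, show (n : ℤ) • Point.some x y h - Point.some x y h =
    ((n : ℤ) - 1) • Point.some x y h by rw [sub_one_zsmul]; rfl] at he
  obtain ⟨s₁, s₂, s₃⟩ := stepIdentities W hn
  replace s₁ := congrArg (eval x) s₁
  replace s₂ := congrArg (eval x) s₂
  replace s₃ := congrArg (eval x) s₃
  simp only [eval_add, eval_sub, eval_mul, eval_pow, eval_C, eval_X] at s₁ s₂ s₃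
  generalize ((n : ℤ) - 1) • Point.some x y h = Pm at *
  generalize ((n : ℤ) + 1) • Point.some x y h = Pp at *
  generalize (n : ℤ) • Point.some x y h = P₀ at *
  have hm0 := congrFun hm 0
  have hm1 := congrFun hm 1
  have h00 := congrFun h0 0
  have h01 := congrFun h0 1
  simp only [Matrix.cons_val_zero, Matrix.cons_val_one, Pi.smul_apply, smul_eq_mul]
    at hm0 hm1 h00 h01
  have e0 := congrFun he 0
  have e1 := congrFun he 1
  have e2 := congrFun he 2
  simp only [Point.sym2x, WeierstrassCurve.addSubMap, Point.xRep_some] at e0 e1 e2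
  simp at e0 e1 e2
  rw [h00, h01, hm0] at s₁
  rw [h00, h01, hm0, hm1] at s₂
  rw [h00, h01, hm1] at s₃
  generalize (W.Φ ((n : ℤ) + 1)).eval x = Np at *
  generalize (W.ΨSq ((n : ℤ) + 1)).eval x = Sp at *
  set K := c₀ ^ 2 * d / cm with hK
  have hKm : K * cm = c₀ ^ 2 * d := by rw [hK, div_mul_cancel₀ _ hcm]
  have f0 : cm * ((Np - K * Pp.xRep 0) * Pm.xRep 0) = 0 := by
    linear_combination s₁ + c₀ ^ 2 * e0 - Pp.xRep 0 * Pm.xRep 0 * hKm
  have f2 : cm * ((Sp - K * Pp.xRep 1) * Pm.xRep 1) = 0 := by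
    linear_combination s₃ + c₀ ^ 2 * e2 - Pp.xRep 1 * Pm.xRep 1 * hKm
  have f1 : cm * ((Np - K * Pp.xRep 0) * Pm.xRep 1 + (Sp - K * Pp.xRep 1) * Pm.xRep 0) = 0 := by
    linear_combination s₂ + c₀ ^ 2 * e1 -
      (Pp.xRep 0 * Pm.xRep 1 + Pp.xRep 1 * Pm.xRep 0) * hKm
  simp only [mul_eq_zero, hcm, false_or] at f0 f1 f2
  have hN : Np = K * Pp.xRep 0 ∧ Sp = K * Pp.xRep 1 := by
    match Pm with
    | .zero =>
      simp [← Point.zero_def] at f0 f1
      exact ⟨sub_eq_zero.mp f0, sub_eq_zero.mp f1⟩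
    | .some x' y' h' =>
      simp at f2 f1
      rw [f2, zero_mul, add_zero] at f1
      exact ⟨sub_eq_zero.mp f1, sub_eq_zero.mp f2⟩
  refine ⟨K, div_ne_zero (mul_ne_zero (pow_ne_zero 2 hc₀) hd) hcm, ?_⟩
  ext i
  fin_cases i <;> simp [hN.1, hN.2]

omit [WeierstrassCurve.IsElliptic W] in
theorem exists_eval_eq_smul_xRep_nsmul (n : ℕ) {x y : F} (h : W.Nonsingular x y) :
    ∃ c : F, c ≠ 0 ∧
      ![(W.Φ n).eval x, (W.ΨSq n).eval x] = c • ((n : ℤ) • Point.some x y h).xRep := by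
  induction n using Nat.strong_induction_on with
  | _ n ih =>
  rcases n with _ | _ | k
  · exact ⟨1, one_ne_zero, by simp⟩
  · exact ⟨1, one_ne_zero, by simp⟩
  · rw [show ((k + 1 + 1 : ℕ) : ℤ) = ((k + 1 : ℕ) : ℤ) + 1 by omega]
    refine step_exists_eval_eq_smul_xRep h (n := k + 1) (by omega) ?_ (ih (k + 1) (by omega))
    rw [show ((k + 1 : ℕ) : ℤ) - 1 = (k : ℤ) by omega]
    exact ih k (by omega)

omit [WeierstrassCurve.IsElliptic W] in
/-- `(Φ_n(x) : ΨSq_n(x))` represents the `x`-coordinate of `n • P` for every integer `n`. -/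
theorem exists_eval_eq_smul_xRep_int (n : ℤ) {x y : F} (h : W.Nonsingular x y) :
    ∃ c : F, c ≠ 0 ∧
      ![(W.Φ n).eval x, (W.ΨSq n).eval x] = c • (n • Point.some x y h).xRep := by
  rcases Int.eq_nat_or_neg n with ⟨k, rfl | rfl⟩
  · exact exists_eval_eq_smul_xRep_nsmul k h
  · obtain ⟨c, hc, he⟩ := exists_eval_eq_smul_xRep_nsmul k h
    exact ⟨c, hc, by rw [WeierstrassCurve.Φ_neg, WeierstrassCurve.ΨSq_neg, neg_smul,
      Point.xRep_neg, he]⟩

omit [WeierstrassCurve.IsElliptic W] in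
lemma zsmul_eq_zero_iff_eval (n : ℤ) {x y : F} (h : W.Nonsingular x y) :
    n • Point.some x y h = 0 ↔ (W.ΨSq n).eval x = 0 := by
  obtain ⟨c, hc, he⟩ := exists_eval_eq_smul_xRep_int n h
  have e1 := congrFun he 1
  generalize n • Point.some x y h = Q at *
  match Q with
  | .zero => simpa [← Point.zero_def] using e1
  | .some x' y' h' =>
    simp only [Point.some_ne_zero, false_iff]
    simp at e1
    rw [e1]; exact hc

omit [WeierstrassCurve.IsElliptic W] in
lemma px_zsmul_mul_eval (n : ℤ) {x y : F} (h : W.Nonsingular x y)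
    (hne : n • Point.some x y h ≠ 0) :
    px (n • Point.some x y h) * (W.ΨSq n).eval x = (W.Φ n).eval x := by
  obtain ⟨c, hc, he⟩ := exists_eval_eq_smul_xRep_int n h
  rw [xRep_of_ne_zero hne] at he
  have e0 := congrFun he 0
  have e1 := congrFun he 1
  simp at e0 e1
  rw [e0, e1, mul_comm]

omit [WeierstrassCurve.IsElliptic W] in
lemma not_eval_Φ_and_ΨSq_eq_zero (n : ℤ) {x y : F} (h : W.Nonsingular x y) :
    ¬((W.Φ n).eval x = 0 ∧ (W.ΨSq n).eval x = 0) := by
  rintro ⟨h0, h1⟩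
  obtain ⟨c, hc, he⟩ := exists_eval_eq_smul_xRep_int n h
  have hz : c • (n • Point.some x y h).xRep = 0 := ?_
  · exact Point.xRep_ne_zero _ ((smul_eq_zero.mp hz).resolve_left hc)
  rw [← he, h0, h1]
  ext i
  fin_cases i <;> simp

omit [DecidableEq F] in
lemma isCoprime_of_elliptic (n : ℤ) : IsCoprime (W.Φ n) (W.ΨSq n) := by
  classical
  refine (Polynomial.isCoprime_iff_aeval_ne_zero_of_isAlgClosed F (AlgebraicClosure F) _ _).mpr ?_
  intro a
  let WL : WeierstrassCurve.Affine (AlgebraicClosure F) :=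
    WeierstrassCurve.map W (algebraMap F (AlgebraicClosure F))
  have : WL.IsElliptic :=
    inferInstanceAs ((WeierstrassCurve.map W (algebraMap F (AlgebraicClosure F))).IsElliptic)
  obtain ⟨b, hb⟩ := exists_nonsingular WL a
  have := not_eval_Φ_and_ΨSq_eq_zero n hb
  rw [WeierstrassCurve.map_Φ, WeierstrassCurve.map_ΨSq, eval_map_algebraMap, eval_map_algebraMap]
    at this
  exact not_and_or.mp this

end Fermat.Agent.EC.Torsion
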