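import Fermat.Agent.EC.Torsion.AddSub

/-!
# Division polynomials below the order of a point

For a nonsingular point `P = (x, y)` such that `kP ≠ 0` for `1 ≤ k ≤ M`, the values `ψ_k(x, y)`,
`k ≤ M + 1`, are the sequence `D` defined by `D_{k+1} D_{k-1} = (x - x(kP)) D_k²`.
-/

set_option autoImplicit false

open Polynomial

namespace Fermat.Agent.EC.Torsion

open WeierstrassCurve.Affine (Point)

variable {F : Type*} [Field F] [DecidableEq F] {W : WeierstrassCurve.Affine F} {x y : F}
  (h : W.Nonsingular x y)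

/-- The x-coordinate of the `k`-th multiple. -/
noncomputable def multX (k : ℕ) : F :=
  px (k • Point.some x y h)

/-- The sequence defined by the x-coordinates of the multiples. -/
noncomputable def multSeq : ℕ → F
  | 0 => 0
  | 1 => 1
  | 2 => W.ψ₂.evalEval x y
  | (k + 3) => (x - multX h (k + 2)) * multSeq (k + 2) ^ 2 / multSeq (k + 1)

lemma multX_one : multX h 1 = x := by
  simp [multX]

variable {M : ℕ} (hM : ∀ k, 1 ≤ k → k ≤ M → k • Point.some x y h ≠ 0)
include hM

lemma multX_ne {m n : ℕ} (hn : 1 ≤ n) (hnm : n < m) (hmn : m + n ≤ M) :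
    multX h m ≠ multX h n := by
  intro he
  rcases eq_or_eq_neg_of_px_eq (hM m (by omega) (by omega)) (hM n hn (by omega)) he with e | e
  · apply hM (m - n) (by omega) (by omega)
    rwa [← Nat.sub_add_cancel hnm.le, add_nsmul, add_eq_right] at e
  · apply hM (m + n) (by omega) hmn
    rw [add_nsmul, e, neg_add_cancel]

lemma biq_multX {m n : ℕ} (hn : 1 ≤ n) (hnm : n < m) (hmn : m + n ≤ M) (c : F) :
    biq W (multX h m) (multX h n) c =
      (multX h m - multX h n) ^ 2 * (c - multX h (m + n)) * (c - multX h (m - n)) := by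
  have := biq_px (hM m (by omega) (by omega)) (hM n hn (by omega)) (multX_ne h hM hn hnm hmn) c
  simp only [multX, add_nsmul, sub_nsmul _ hnm.le] at this ⊢
  simpa [sub_eq_add_neg] using this

lemma multSeq_ne_zero : ∀ {k : ℕ}, 1 ≤ k → k ≤ M → multSeq h k ≠ 0
  | 0, h0, _ => absurd h0 (by omega)
  | 1, _, _ => by simp [multSeq]
  | 2, _, h2 => by
    rw [multSeq]
    exact (two_nsmul_some_eq_zero_iff h).not.mp (hM 2 (by omega) h2)
  | (k + 3), _, hk => by
    rw [multSeq]
    refine div_ne_zero (mul_ne_zero (sub_ne_zero.mpr ?_)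
      (pow_ne_zero 2 (multSeq_ne_zero (by omega) (by omega))))
      (multSeq_ne_zero (by omega) (by omega))
    have := multX_ne h hM (m := k + 2) (n := 1) le_rfl (by omega) (by omega)
    rw [multX_one] at this
    exact this.symm

lemma sub_multX_mul_sq {m : ℕ} (h2 : 2 ≤ m) (hm : m ≤ M) :
    (x - multX h m) * multSeq h m ^ 2 = multSeq h (m + 1) * multSeq h (m - 1) := by
  obtain ⟨k, rfl⟩ : ∃ k, m = k + 2 := ⟨m - 2, by omega⟩
  rw [show k + 2 - 1 = k + 1 by omega, show k + 2 + 1 = k + 3 from rfl]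
  conv_rhs => rw [multSeq]
  rw [div_mul_cancel₀ _ (multSeq_ne_zero h hM (by omega) (by omega))]

lemma multX_two_mul (h2 : 2 ≤ M) :
    multX h 2 * W.Ψ₂Sq.eval x = (W.Φ 2).eval x := by
  simpa [multX] using px_two_nsmul_mul (Point.some_ne_zero h) (hM 2 (by omega) h2)

lemma multX_sub_multX_two {m : ℕ} (h3 : 3 ≤ m) (hm : m + 2 ≤ M + 1) :
    (multX h 2 - multX h m) * (multSeq h m * multSeq h 2) ^ 2 =
      multSeq h (m + 2) * multSeq h (m - 2) := by
  have key := biq_self_px (Point.some_ne_zero h) (hM 2 (by omega) (by omega)) (multX h m)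
  rw [px_some, biq_swap, biq_comm] at key
  have key' := biq_multX h hM (m := m) (n := 1) le_rfl (by omega) (by omega) x
  rw [multX_one] at key'
  rw [key'] at key
  change _ = _ * (multX h 2 - multX h m) at key
  rw [← sq_evalEval_ψ₂ W h.1, show W.ψ₂.evalEval x y = multSeq h 2 by rw [multSeq]] at key
  have hA := sub_multX_mul_sq h hM (m := m) (by omega) (by omega)
  have hJ := sub_multX_mul_sq h hM (m := m + 1) (by omega) (by omega)
  have hK := sub_multX_mul_sq h hM (m := m - 1) (by omega) (by omega)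
  rw [show m + 1 + 1 = m + 2 from rfl, show m + 1 - 1 = m by omega] at hJ
  rw [show m - 1 + 1 = m by omega, show m - 1 - 1 = m - 2 by omega] at hK
  have hD : multSeq h (m + 1) ^ 2 * multSeq h (m - 1) ^ 2 * multSeq h m ^ 2 ≠ 0 := by
    have := multSeq_ne_zero h hM (k := m + 1) (by omega) (by omega)
    have := multSeq_ne_zero h hM (k := m - 1) (by omega) (by omega)
    have := multSeq_ne_zero h hM (k := m) (by omega) (by omega)
    positivity
  have e : ((x - multX h m) * multSeq h m ^ 2) ^ 2 *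
      ((x - multX h (m + 1)) * multSeq h (m + 1) ^ 2) *
      ((x - multX h (m - 1)) * multSeq h (m - 1) ^ 2) =
      (multSeq h (m + 1) ^ 2 * multSeq h (m - 1) ^ 2 * multSeq h m ^ 2) *
        ((multX h 2 - multX h m) * (multSeq h m * multSeq h 2) ^ 2) := by
    linear_combination
      (multSeq h (m + 1) ^ 2 * multSeq h (m - 1) ^ 2 * multSeq h m ^ 4) * key
  rw [hA, hJ, hK] at e
  exact mul_left_cancel₀ hD (by linear_combination -e)

lemma multX_sub_multX_succ {m n : ℕ} (hn : 2 ≤ n) (hnm : n + 1 < m) (hmn : m + (n + 1) ≤ M + 1)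
    (hB : (multX h (n - 1) - multX h m) * (multSeq h m * multSeq h (n - 1)) ^ 2 =
      multSeq h (m + n - 1) * multSeq h (m - n + 1))
    (hE : (multX h n - multX h m) * (multSeq h m * multSeq h n) ^ 2 =
      multSeq h (m + n) * multSeq h (m - n)) :
    (multX h (n + 1) - multX h m) * (multSeq h m * multSeq h (n + 1)) ^ 2 =
      multSeq h (m + (n + 1)) * multSeq h (m - (n + 1)) := by
  have k1 := biq_multX h hM (m := n) (n := 1) le_rfl (by omega) (by omega) (multX h m)
  have k2 := biq_multX h hM (m := m) (n := n) (by omega) (by omega) (by omega) x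
  rw [multX_one, biq_swap, biq_comm] at k1
  rw [k2] at k1
  have hA := sub_multX_mul_sq h hM (m := n) hn (by omega)
  have hJ := sub_multX_mul_sq h hM (m := m + n) (by omega) (by omega)
  have hK := sub_multX_mul_sq h hM (m := m - n) (by omega) (by omega)
  rw [show m + n + 1 = m + (n + 1) by omega] at hJ
  rw [show m - n - 1 = m - (n + 1) by omega] at hK
  have hD : multSeq h (n + 1) ^ 2 * multSeq h (n - 1) ^ 2 *
      (multSeq h (m + n - 1) * multSeq h (m - n + 1)) ≠ 0 := by
    have := multSeq_ne_zero h hM (k := n + 1) (by omega) (by omega)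
    have := multSeq_ne_zero h hM (k := n - 1) (by omega) (by omega)
    have := multSeq_ne_zero h hM (k := m + n - 1) (by omega) (by omega)
    have := multSeq_ne_zero h hM (k := m - n + 1) (by omega) (by omega)
    positivity
  have e : ((x - multX h n) * multSeq h n ^ 2) ^ 2 *
      ((multX h (n - 1) - multX h m) * (multSeq h m * multSeq h (n - 1)) ^ 2) *
      ((multX h (n + 1) - multX h m) * (multSeq h m * multSeq h (n + 1)) ^ 2) =
      multSeq h (n + 1) ^ 2 * multSeq h (n - 1) ^ 2 *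
      ((multX h n - multX h m) * (multSeq h m * multSeq h n) ^ 2) ^ 2 *
      (x - multX h (m + n)) * (x - multX h (m - n)) := by
    linear_combination (-(multSeq h (n + 1) ^ 2 * multSeq h (n - 1) ^ 2 *
      multSeq h m ^ 4 * multSeq h n ^ 4)) * k1
  rw [hA, hB, hE] at e
  refine mul_left_cancel₀ hD ?_
  calc _ = (multSeq h (n + 1) * multSeq h (n - 1)) ^ 2 *
        (multSeq h (m + n - 1) * multSeq h (m - n + 1)) *
        ((multX h (n + 1) - multX h m) * (multSeq h m * multSeq h (n + 1)) ^ 2) := by ring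
    _ = multSeq h (n + 1) ^ 2 * multSeq h (n - 1) ^ 2 *
        ((x - multX h (m + n)) * multSeq h (m + n) ^ 2) *
        ((x - multX h (m - n)) * multSeq h (m - n) ^ 2) := by rw [e]; ring
    _ = _ := by rw [hJ, hK]; ring

lemma multX_sub_multX (n : ℕ) : 1 ≤ n → ∀ m, n < m → m + n ≤ M + 1 →
    (multX h n - multX h m) * (multSeq h m * multSeq h n) ^ 2 =
      multSeq h (m + n) * multSeq h (m - n) := by
  induction n using Nat.strong_induction_on with
  | _ n ih =>
  intro h1 m hnm hmn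
  rcases n with _ | _ | _ | n
  · omega
  · rw [multX_one, multSeq, mul_one]
    exact sub_multX_mul_sq h hM (by omega) (by omega)
  · exact multX_sub_multX_two h hM (by omega) hmn
  · refine multX_sub_multX_succ h hM (by omega) hnm hmn ?_
      (ih (n + 2) (by omega) (by omega) m (by omega) (by omega))
    have := ih (n + 1) (by omega) (by omega) m (by omega) (by omega)
    rwa [show m + (n + 2) - 1 = m + (n + 1) by omega, show m - (n + 2) + 1 = m - (n + 1) by omega,
      show n + 2 - 1 = n + 1 by omega]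

lemma multSeq_odd {m : ℕ} (hm : 2 ≤ m) (hmM : 2 * m + 1 ≤ M + 1) :
    multSeq h (2 * m + 1) =
      multSeq h (m + 2) * multSeq h m ^ 3 - multSeq h (m - 1) * multSeq h (m + 1) ^ 3 := by
  have hE := multX_sub_multX h hM m (by omega) (m + 1) (by omega) (by omega)
  rw [show m + 1 + m = 2 * m + 1 by omega, show m + 1 - m = 1 by omega,
    show multSeq h 1 = 1 by rw [multSeq], mul_one] at hE
  have hp := sub_multX_mul_sq h hM (m := m + 1) (by omega) (by omega)
  rw [show m + 1 + 1 = m + 2 from rfl, show m + 1 - 1 = m by omega] at hp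
  have hq := sub_multX_mul_sq h hM (m := m) hm (by omega)
  linear_combination -hE + multSeq h m ^ 2 * hp - multSeq h (m + 1) ^ 2 * hq

lemma multSeq_even {m : ℕ} (hm : 3 ≤ m) (hmM : 2 * m ≤ M + 1) :
    multSeq h (2 * m) * multSeq h 2 =
      multSeq h (m - 1) ^ 2 * multSeq h m * multSeq h (m + 2) -
        multSeq h (m - 2) * multSeq h m * multSeq h (m + 1) ^ 2 := by
  have hE := multX_sub_multX h hM (m - 1) (by omega) (m + 1) (by omega) (by omega)
  rw [show m + 1 + (m - 1) = 2 * m by omega, show m + 1 - (m - 1) = 2 by omega] at hE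
  have hp := sub_multX_mul_sq h hM (m := m + 1) (by omega) (by omega)
  rw [show m + 1 + 1 = m + 2 from rfl, show m + 1 - 1 = m by omega] at hp
  have hq := sub_multX_mul_sq h hM (m := m - 1) (by omega) (by omega)
  rw [show m - 1 + 1 = m by omega, show m - 1 - 1 = m - 2 by omega] at hq
  linear_combination -hE + multSeq h (m - 1) ^ 2 * hp - multSeq h (m + 1) ^ 2 * hq

lemma multSeq_three (h3 : 3 ≤ M + 1) : multSeq h 3 = W.Ψ₃.eval x := by
  have hu := multX_two_mul h hM (by omega)
  rw [show 3 = 0 + 3 from rfl, multSeq, show multSeq h (0 + 1) = 1 by rw [multSeq], div_one,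
    show multSeq h (0 + 2) = W.ψ₂.evalEval x y by rw [multSeq], sq_evalEval_ψ₂ W h.1]
  rw [eval_Ψ₂Sq, eval_Φ_two] at hu
  simp only [WeierstrassCurve.Ψ₃, eval_add, eval_mul, eval_pow, eval_C, eval_X, eval_ofNat,
    eval_Ψ₂Sq]
  linear_combination -hu

lemma multSeq_four (h4 : 4 ≤ M + 1) :
    multSeq h 4 = W.preΨ₄.eval x * W.ψ₂.evalEval x y := by
  have hu := multX_two_mul h hM (by omega)
  have hne' := multX_ne h hM (m := 2) (n := 1) le_rfl (by omega) (by omega)
  rw [multX_one] at hne'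
  obtain ⟨-, -, hs, -⟩ := px_add_sub (hM 2 (by omega) (by omega)) (Point.some_ne_zero h)
    (by simpa [multX] using hne')
  have h2 : (2 : ℕ) • Point.some x y h - Point.some x y h = Point.some x y h := by
    rw [two_nsmul, add_sub_cancel_right]
  rw [← succ_nsmul, h2, px_some] at hs
  change (multX h 2 - x) ^ 2 * (multX h 3 + x) = sumForm W (multX h 2) x at hs
  have hne := multSeq_ne_zero h hM (k := 2) (by omega) (by omega)
  have e := sub_multX_mul_sq h hM (m := 3) (by omega) (by omega)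
  have e2 := sub_multX_mul_sq h hM (m := 2) le_rfl (by omega)
  have hD2 : multSeq h 2 ^ 2 = W.Ψ₂Sq.eval x := by rw [multSeq, sq_evalEval_ψ₂ W h.1]
  rw [show multSeq h (2 - 1) = 1 by rw [multSeq], mul_one, hD2] at e2
  rw [← e2, show 3 - 1 = 2 from rfl] at e
  apply mul_right_cancel₀ hne
  rw [show W.ψ₂.evalEval x y = multSeq h 2 by rw [multSeq]]
  rw [mul_assoc (W.preΨ₄.eval x), ← sq, hD2]
  simp only [sumForm, eval_Ψ₂Sq, eval_Φ_two, WeierstrassCurve.preΨ₄, eval_add, eval_mul, eval_pow,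
    eval_C, eval_X, eval_ofNat] at hs hu e ⊢
  linear_combination -e - (4 * x ^ 3 + W.b₂ * x ^ 2 + 2 * W.b₄ * x + W.b₆) ^ 2 * hs -
    (4 * x ^ 3 + W.b₂ * x ^ 2 + 2 * W.b₄ * x + W.b₆) * (6 * x ^ 2 + W.b₂ * x + W.b₄) * hu -
    (4 * x ^ 3 + W.b₂ * x ^ 2 + 2 * W.b₄ * x + W.b₆) * x ^ 2 * W.b_relation

omit [DecidableEq F] in
omit hM in
lemma evalEval_ψ_even (m : ℤ) :
    (W.ψ (2 * m)).evalEval x y * (W.ψ 2).evalEval x y =
      (W.ψ (m - 1)).evalEval x y ^ 2 * (W.ψ m).evalEval x y * (W.ψ (m + 2)).evalEval x y -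
        (W.ψ (m - 2)).evalEval x y * (W.ψ m).evalEval x y * (W.ψ (m + 1)).evalEval x y ^ 2 := by
  have := congrArg (Polynomial.evalEval x y) (W.ψ_even m)
  simpa [WeierstrassCurve.ψ_two] using this

omit [DecidableEq F] in
omit hM in
lemma evalEval_ψ_odd (m : ℤ) :
    (W.ψ (2 * m + 1)).evalEval x y =
      (W.ψ (m + 2)).evalEval x y * (W.ψ m).evalEval x y ^ 3 -
        (W.ψ (m - 1)).evalEval x y * (W.ψ (m + 1)).evalEval x y ^ 3 := by
  have := congrArg (Polynomial.evalEval x y) (W.ψ_odd m)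
  simpa using this

theorem evalEval_ψ_eq_multSeq (k : ℕ) :
    k ≤ M + 1 → (W.ψ k).evalEval x y = multSeq h k := by
  induction k using Nat.strong_induction_on with
  | _ k ih =>
  intro hk
  rcases lt_or_ge k 5 with hk5 | hk5
  · interval_cases k
    · simp [multSeq]
    · simp [multSeq]
    · simp [multSeq]
    · simp [multSeq_three h hM hk, Polynomial.evalEval]
    · simp [multSeq_four h hM hk, Polynomial.evalEval]
  rcases Nat.even_or_odd' k with ⟨m, rfl | rfl⟩
  · have hz := evalEval_ψ_even (W := W) (x := x) (y := y) (m : ℤ)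
    rw [show (m : ℤ) - 1 = ((m - 1 : ℕ) : ℤ) by omega,
      show (m : ℤ) - 2 = ((m - 2 : ℕ) : ℤ) by omega,
      show (m : ℤ) + 1 = ((m + 1 : ℕ) : ℤ) by omega, show (m : ℤ) + 2 = ((m + 2 : ℕ) : ℤ) by omega,
      show (2 : ℤ) * m = ((2 * m : ℕ) : ℤ) by omega,
      ih m (by omega) (by omega), ih (m - 1) (by omega) (by omega),
      ih (m - 2) (by omega) (by omega), ih (m + 1) (by omega) (by omega),
      ih (m + 2) (by omega) (by omega), ← multSeq_even h hM (by omega) hk,
      WeierstrassCurve.ψ_two] at hz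
    rw [show W.ψ₂.evalEval x y = multSeq h 2 by rw [multSeq]] at hz
    exact mul_right_cancel₀ (multSeq_ne_zero h hM (by omega) (by omega)) hz
  · have hz := evalEval_ψ_odd (W := W) (x := x) (y := y) (m : ℤ)
    rw [show (m : ℤ) - 1 = ((m - 1 : ℕ) : ℤ) by omega,
      show (m : ℤ) + 1 = ((m + 1 : ℕ) : ℤ) by omega, show (m : ℤ) + 2 = ((m + 2 : ℕ) : ℤ) by omega,
      show (2 : ℤ) * m + 1 = ((2 * m + 1 : ℕ) : ℤ) by omega,
      ih m (by omega) (by omega), ih (m - 1) (by omega) (by omega),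
      ih (m + 1) (by omega) (by omega), ih (m + 2) (by omega) (by omega)] at hz
    rw [hz, multSeq_odd h hM (by omega) hk]

theorem multX_mul_sq_evalEval_ψ {k : ℕ} (h1 : 1 ≤ k) (hk : k ≤ M) :
    multX h k * (W.ψ k).evalEval x y ^ 2 = (W.φ k).evalEval x y := by
  have hφ : (W.φ k).evalEval x y = x * (W.ψ k).evalEval x y ^ 2 -
      (W.ψ ((k : ℤ) + 1)).evalEval x y * (W.ψ ((k : ℤ) - 1)).evalEval x y := by
    simp [WeierstrassCurve.φ, Polynomial.evalEval]
  rw [hφ, show (k : ℤ) + 1 = ((k + 1 : ℕ) : ℤ) by omega,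
    show (k : ℤ) - 1 = ((k - 1 : ℕ) : ℤ) by omega, evalEval_ψ_eq_multSeq h hM k (by omega),
    evalEval_ψ_eq_multSeq h hM (k + 1) (by omega), evalEval_ψ_eq_multSeq h hM (k - 1) (by omega)]
  rcases lt_or_ge k 2 with h2 | h2
  · obtain rfl : k = 1 := by omega
    simp [multX_one, multSeq]
  · linear_combination -sub_multX_mul_sq h hM h2 hk

theorem evalEval_ψ_succ_eq_zero (h0 : (M + 1) • Point.some x y h = 0) :
    (W.ψ (M + 1 : ℕ)).evalEval x y = 0 := by
  rw [evalEval_ψ_eq_multSeq h hM (M + 1) le_rfl]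
  rcases M with _ | _ | N
  · simp at h0
  · rw [multSeq]
    exact (two_nsmul_some_eq_zero_iff h).mp h0
  · rw [succ_nsmul, add_eq_zero_iff_eq_neg] at h0
    have : multX h (N + 2) = x := by rw [multX, h0, px_neg, px_some]
    rw [multSeq, this, sub_self, zero_mul, zero_div]

omit hM in
/-- If `nP = 0` with `n ≠ 0`, then some `ψ_k`, `1 ≤ k ≤ n`, vanishes at `P`. -/
theorem exists_evalEval_ψ_eq_zero {n : ℕ} (hn : n ≠ 0) (h0 : n • Point.some x y h = 0) :
    ∃ k : ℕ, 1 ≤ k ∧ k ≤ n ∧ (W.ψ k).evalEval x y = 0 := by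
  classical
  have hex : ∃ k : ℕ, 1 ≤ k ∧ k • Point.some x y h = 0 := ⟨n, by omega, h0⟩
  obtain ⟨h1, hk⟩ := Nat.find_spec hex
  obtain ⟨M, hM'⟩ : ∃ M, Nat.find hex = M + 1 := ⟨Nat.find hex - 1, by omega⟩
  rw [hM'] at hk
  refine ⟨M + 1, by omega, hM' ▸ Nat.find_min' hex ⟨by omega, h0⟩,
    evalEval_ψ_succ_eq_zero h (fun k hk1 hkM hk0 => ?_) hk⟩
  exact Nat.find_min hex (by omega : k < Nat.find hex) ⟨hk1, hk0⟩

end Fermat.Agent.EC.Torsion
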