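import Fermat.Agent.EC.Torsion.Order

/-!
# Universal identities between `Φ_{n±1}`, `ΨSq_{n±1}` and `Φ_n`, `ΨSq_n`

The identities are proved at generic points over the algebraic closure of the fraction field of the
universal coefficient ring, and then specialised.
-/

set_option autoImplicit false

open Polynomial
open scoped Polynomial.Bivariate

namespace Fermat.Agent.EC.Torsion

open WeierstrassCurve.Affine (Point)

section Eval

variable {F : Type*} [Field F] (W : WeierstrassCurve.Affine F) {x y : F}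

lemma evalEval_eq_of_mk_eq (h : W.Equation x y) {p q : F[X][Y]}
    (hpq : WeierstrassCurve.Affine.CoordinateRing.mk W p =
      WeierstrassCurve.Affine.CoordinateRing.mk W q) :
    p.evalEval x y = q.evalEval x y := by
  obtain ⟨r, hr⟩ := AdjoinRoot.mk_eq_mk.mp hpq
  have h0 : W.polynomial.evalEval x y = 0 := h
  have := congrArg (Polynomial.evalEval x y) hr
  rw [evalEval_sub, evalEval_mul, h0, zero_mul] at this
  exact sub_eq_zero.mp this

lemma sq_evalEval_ψ (h : W.Equation x y) (n : ℤ) :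
    (W.ψ n).evalEval x y ^ 2 = (W.ΨSq n).eval x := by
  have := evalEval_eq_of_mk_eq W h (p := W.ψ n ^ 2) (q := C (W.ΨSq n)) <| by
    rw [map_pow, WeierstrassCurve.Affine.CoordinateRing.mk_ψ,
      WeierstrassCurve.Affine.CoordinateRing.mk_Ψ_sq]
  simpa [Polynomial.evalEval] using this

lemma evalEval_φ (h : W.Equation x y) (n : ℤ) :
    (W.φ n).evalEval x y = (W.Φ n).eval x := by
  have := evalEval_eq_of_mk_eq W h (WeierstrassCurve.Affine.CoordinateRing.mk_φ (W := W) n)
  simpa [Polynomial.evalEval] using this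

lemma exists_nonsingular [IsAlgClosed F] [W.IsElliptic] (x : F) :
    ∃ y : F, W.Nonsingular x y := by
  obtain ⟨y, hy⟩ := IsAlgClosed.exists_root
    (C (1 : F) * X ^ 2 + C (W.a₁ * x + W.a₃) * X
      + C (-(x ^ 3 + W.a₂ * x ^ 2 + W.a₄ * x + W.a₆)))
    (by rw [degree_quadratic one_ne_zero]; exact two_ne_zero)
  refine ⟨y, WeierstrassCurve.Affine.equation_iff_nonsingular.mp ?_⟩
  rw [WeierstrassCurve.Affine.equation_iff]
  simp only [IsRoot, eval_add, eval_mul, eval_pow, eval_C, eval_X] at hy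
  linear_combination hy

end Eval

section Identities

variable {R : Type*} [CommRing R]

/-- The sum and product formulas for the x-coordinates of `(n ± 1)P`, as polynomial identities,
together with the formula for their common denominator. -/
def StepIdentities (W : WeierstrassCurve R) (n : ℕ) : Prop :=
  W.Φ ((n : ℤ) + 1) * W.Φ ((n : ℤ) - 1) =
      (X * W.Φ n) ^ 2 - C W.b₄ * (X * W.Φ n) * W.ΨSq n
        - C W.b₆ * (W.Φ n + X * W.ΨSq n) * W.ΨSq n - C W.b₈ * W.ΨSq n ^ 2 ∧
  W.Φ ((n : ℤ) + 1) * W.ΨSq ((n : ℤ) - 1) + W.Φ ((n : ℤ) - 1) * W.ΨSq ((n : ℤ) + 1) =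
      C 2 * (W.Φ n + X * W.ΨSq n) * (X * W.Φ n) + C W.b₂ * (X * W.Φ n) * W.ΨSq n
        + C W.b₄ * (W.Φ n + X * W.ΨSq n) * W.ΨSq n + C W.b₆ * W.ΨSq n ^ 2 ∧
  W.ΨSq ((n : ℤ) + 1) * W.ΨSq ((n : ℤ) - 1) =
      (W.Φ n + X * W.ΨSq n) ^ 2 - C 4 * (X * W.Φ n) * W.ΨSq n

lemma StepIdentities.map {S : Type*} [CommRing S] {W : WeierstrassCurve R} {n : ℕ}
    (h : StepIdentities W n) (f : R →+* S) : StepIdentities (W.map f) n := by
  obtain ⟨h₁, h₂, h₃⟩ := h
  exact ⟨by simpa only [Polynomial.map_mul, Polynomial.map_add, Polynomial.map_sub,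
    Polynomial.map_pow,
      Polynomial.map_C, Polynomial.map_X, WeierstrassCurve.map_Φ, WeierstrassCurve.map_ΨSq,
      WeierstrassCurve.map_b₂, WeierstrassCurve.map_b₄, WeierstrassCurve.map_b₆,
      WeierstrassCurve.map_b₈, map_ofNat, Polynomial.map_ofNat] using
        congrArg (Polynomial.map f) h₁,
    by simpa only [Polynomial.map_mul, Polynomial.map_add, Polynomial.map_sub, Polynomial.map_pow,
      Polynomial.map_C, Polynomial.map_X, WeierstrassCurve.map_Φ, WeierstrassCurve.map_ΨSq,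
      WeierstrassCurve.map_b₂, WeierstrassCurve.map_b₄, WeierstrassCurve.map_b₆,
      WeierstrassCurve.map_b₈, map_ofNat, Polynomial.map_ofNat] using
        congrArg (Polynomial.map f) h₂,
    by simpa only [Polynomial.map_mul, Polynomial.map_add, Polynomial.map_sub, Polynomial.map_pow,
      Polynomial.map_C, Polynomial.map_X, WeierstrassCurve.map_Φ, WeierstrassCurve.map_ΨSq,
      WeierstrassCurve.map_b₂, WeierstrassCurve.map_b₄, WeierstrassCurve.map_b₆,
      WeierstrassCurve.map_b₈, map_ofNat, Polynomial.map_ofNat] using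
        congrArg (Polynomial.map f) h₃⟩

lemma StepIdentities.of_map {S : Type*} [CommRing S] {W : WeierstrassCurve R} {n : ℕ}
    {f : R →+* S} (hf : Function.Injective f) (h : StepIdentities (W.map f) n) :
    StepIdentities W n := by
  obtain ⟨h₁, h₂, h₃⟩ := h
  refine ⟨Polynomial.map_injective f hf ?_, Polynomial.map_injective f hf ?_,
    Polynomial.map_injective f hf ?_⟩
  · simpa only [Polynomial.map_mul, Polynomial.map_add, Polynomial.map_sub, Polynomial.map_pow,
      Polynomial.map_C, Polynomial.map_X, WeierstrassCurve.map_Φ, WeierstrassCurve.map_ΨSq,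
      WeierstrassCurve.map_b₂, WeierstrassCurve.map_b₄, WeierstrassCurve.map_b₆,
      WeierstrassCurve.map_b₈, map_ofNat, Polynomial.map_ofNat] using h₁
  · simpa only [Polynomial.map_mul, Polynomial.map_add, Polynomial.map_sub, Polynomial.map_pow,
      Polynomial.map_C, Polynomial.map_X, WeierstrassCurve.map_Φ, WeierstrassCurve.map_ΨSq,
      WeierstrassCurve.map_b₂, WeierstrassCurve.map_b₄, WeierstrassCurve.map_b₆,
      WeierstrassCurve.map_b₈, map_ofNat, Polynomial.map_ofNat] using h₂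
  · simpa only [Polynomial.map_mul, Polynomial.map_add, Polynomial.map_sub, Polynomial.map_pow,
      Polynomial.map_C, Polynomial.map_X, WeierstrassCurve.map_Φ, WeierstrassCurve.map_ΨSq,
      WeierstrassCurve.map_b₂, WeierstrassCurve.map_b₄, WeierstrassCurve.map_b₆,
      WeierstrassCurve.map_b₈, map_ofNat, Polynomial.map_ofNat] using h₃

end Identities

section Generic

variable {F : Type*} [Field F] [DecidableEq F] (W : WeierstrassCurve.Affine F)

omit [DecidableEq F] in
lemma stepIdentities_one : StepIdentities W 1 := by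
  refine ⟨?_, ?_, ?_⟩ <;>
    simp [WeierstrassCurve.Φ_two, WeierstrassCurve.Ψ₂Sq, map_ofNat] <;> ring

lemma eval_stepIdentities {n : ℕ} (hn : 2 ≤ n) {x y : F} (h : W.Nonsingular x y)
    (hM : ∀ k, 1 ≤ k → k ≤ n + 1 → k • Point.some x y h ≠ 0) :
    (W.Φ ((n : ℤ) + 1)).eval x * (W.Φ ((n : ℤ) - 1)).eval x =
        (x * (W.Φ n).eval x) ^ 2 - W.b₄ * (x * (W.Φ n).eval x) * (W.ΨSq n).eval x
          - W.b₆ * ((W.Φ n).eval x + x * (W.ΨSq n).eval x) * (W.ΨSq n).eval x
          - W.b₈ * (W.ΨSq n).eval x ^ 2 ∧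
    (W.Φ ((n : ℤ) + 1)).eval x * (W.ΨSq ((n : ℤ) - 1)).eval x +
        (W.Φ ((n : ℤ) - 1)).eval x * (W.ΨSq ((n : ℤ) + 1)).eval x =
        2 * ((W.Φ n).eval x + x * (W.ΨSq n).eval x) * (x * (W.Φ n).eval x)
          + W.b₂ * (x * (W.Φ n).eval x) * (W.ΨSq n).eval x
          + W.b₄ * ((W.Φ n).eval x + x * (W.ΨSq n).eval x) * (W.ΨSq n).eval x
          + W.b₆ * (W.ΨSq n).eval x ^ 2 ∧
    (W.ΨSq ((n : ℤ) + 1)).eval x * (W.ΨSq ((n : ℤ) - 1)).eval x =
        ((W.Φ n).eval x + x * (W.ΨSq n).eval x) ^ 2 -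
          4 * (x * (W.Φ n).eval x) * (W.ΨSq n).eval x := by
  rw [show (n : ℤ) - 1 = ((n - 1 : ℕ) : ℤ) by omega, show (n : ℤ) + 1 = ((n + 1 : ℕ) : ℤ) by omega]
  simp only [← sq_evalEval_ψ W h.1, ← evalEval_φ W h.1,
    ← multX_mul_sq_evalEval_ψ h hM (show 1 ≤ n + 1 by omega) le_rfl,
    ← multX_mul_sq_evalEval_ψ h hM (show 1 ≤ n - 1 by omega) (show n - 1 ≤ n + 1 by omega),
    ← multX_mul_sq_evalEval_ψ h hM (show 1 ≤ n by omega) (show n ≤ n + 1 by omega)]
  have hA := sub_multX_mul_sq h hM hn (show n ≤ n + 1 by omega)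
  rw [← evalEval_ψ_eq_multSeq h hM n (by omega), ← evalEval_ψ_eq_multSeq h hM (n + 1) (by omega),
    ← evalEval_ψ_eq_multSeq h hM (n - 1) (by omega)] at hA
  have k := fun c => biq_multX h hM (m := n) (n := 1) le_rfl (by omega) (by omega) c
  simp only [multX_one, biq] at k
  have hs : (multX h n - x) ^ 2 * (multX h (n + 1) + multX h (n - 1)) =
      sumForm W (multX h n) x := by linear_combination k 1 - k 0
  have hp : (multX h n - x) ^ 2 * (multX h (n + 1) * multX h (n - 1)) =
      prodForm W (multX h n) x := by linear_combination -(k 0)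
  simp only [sumForm, prodForm] at hs hp
  generalize multX h n = a at *
  generalize multX h (n + 1) = b at *
  generalize multX h (n - 1) = c at *
  generalize (W.ψ (n : ℤ)).evalEval x y = z at *
  generalize (W.ψ ((n + 1 : ℕ) : ℤ)).evalEval x y = zp at *
  generalize (W.ψ ((n - 1 : ℕ) : ℤ)).evalEval x y = zm at *
  have hA2 : zp ^ 2 * zm ^ 2 = (a - x) ^ 2 * z ^ 4 := by
    linear_combination (-(zp * zm + (x - a) * z ^ 2)) * hA
  refine ⟨?_, ?_, ?_⟩
  · linear_combination b * c * hA2 + z ^ 4 * hp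
  · linear_combination (b + c) * hA2 + z ^ 4 * hs
  · linear_combination hA2

lemma stepIdentities_of_charZero [IsAlgClosed F] [CharZero F] [W.IsElliptic] {n : ℕ}
    (hn : 2 ≤ n) : StepIdentities W n := by
  set B : F[X] := ∏ k ∈ Finset.Icc 1 (n + 1), W.ΨSq (k : ℤ) with hB
  have hB0 : B ≠ 0 := Finset.prod_ne_zero_iff.mpr fun k hk => by
    refine W.ΨSq_ne_zero ?_
    have : 1 ≤ k := (Finset.mem_Icc.mp hk).1
    simp only [Int.cast_natCast, ne_eq, Nat.cast_eq_zero]
    omega
  have hinf : {x : F | B.eval x ≠ 0}.Infinite := by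
    have := (Polynomial.finite_setOfPred_isRoot hB0).infinite_compl
    exact this
  have key : ∀ x : F, B.eval x ≠ 0 → ∃ (y : F) (h : W.Nonsingular x y),
      ∀ k, 1 ≤ k → k ≤ n + 1 → k • Point.some x y h ≠ 0 := by
    intro x hx
    obtain ⟨y, h⟩ := exists_nonsingular W x
    refine ⟨y, h, fun k hk1 hkn h0 => hx ?_⟩
    obtain ⟨j, hj1, hjk, hj0⟩ := exists_evalEval_ψ_eq_zero h (by omega) h0
    rw [hB, eval_prod]
    refine Finset.prod_eq_zero (Finset.mem_Icc.mpr ⟨hj1, by omega⟩) ?_
    rw [← sq_evalEval_ψ W h.1, hj0, zero_pow two_ne_zero]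
  refine ⟨?_, ?_, ?_⟩ <;> refine eq_of_infinite_eval_eq _ _ (hinf.mono fun x hx => ?_) <;>
    obtain ⟨y, h, hM⟩ := key x hx <;> obtain ⟨h₁, h₂, h₃⟩ := eval_stepIdentities W hn h hM <;>
    simp only [Set.mem_ofPred_eq, eval_add, eval_sub, eval_mul, eval_pow, eval_C, eval_X]
  · exact h₁
  · exact h₂
  · exact h₃

end Generic

section Universal

/-- The universal Weierstrass curve over `ℤ[a₁, a₂, a₃, a₄, a₆]`. -/
noncomputable def universalCurve : WeierstrassCurve (MvPolynomial (Fin 5) ℤ) :=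
  ⟨MvPolynomial.X 0, MvPolynomial.X 1, MvPolynomial.X 2, MvPolynomial.X 3, MvPolynomial.X 4⟩

lemma universalCurve_map {R : Type*} [CommRing R] (W : WeierstrassCurve R) :
    universalCurve.map (MvPolynomial.eval₂Hom (Int.castRingHom R)
      ![W.a₁, W.a₂, W.a₃, W.a₄, W.a₆]) = W := by
  apply WeierstrassCurve.ext <;> simp [universalCurve]

lemma universalCurve_Δ_ne_zero : universalCurve.Δ ≠ 0 := by
  intro h0
  let W : WeierstrassCurve ℤ := ⟨0, 0, 0, -1, 0⟩
  have h : W.Δ = 0 := by rw [← universalCurve_map W, WeierstrassCurve.map_Δ, h0, map_zero]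
  norm_num [W, WeierstrassCurve.Δ, WeierstrassCurve.b₂, WeierstrassCurve.b₄,
    WeierstrassCurve.b₆, WeierstrassCurve.b₈] at h

/-- The step identities hold for every Weierstrass curve over every ring. -/
theorem stepIdentities {R : Type*} [CommRing R] (W : WeierstrassCurve R) {n : ℕ} (hn : 1 ≤ n) :
    StepIdentities W n := by
  classical
  rw [← universalCurve_map W]
  refine StepIdentities.map ?_ _
  let L := AlgebraicClosure (FractionRing (MvPolynomial (Fin 5) ℤ))
  let f : MvPolynomial (Fin 5) ℤ →+* L :=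
    (algebraMap (FractionRing (MvPolynomial (Fin 5) ℤ)) L).comp
      (algebraMap (MvPolynomial (Fin 5) ℤ) _)
  have hf : Function.Injective f :=
    (algebraMap (FractionRing (MvPolynomial (Fin 5) ℤ)) L).injective.comp
      (IsFractionRing.injective _ _)
  have : CharZero L := charZero_of_injective_ringHom hf
  have : (universalCurve.map f).IsElliptic := by
    rw [WeierstrassCurve.isElliptic_iff, WeierstrassCurve.map_Δ, isUnit_iff_ne_zero]
    exact (map_ne_zero_iff f hf).mpr universalCurve_Δ_ne_zero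
  refine StepIdentities.of_map hf ?_
  rcases lt_or_ge n 2 with h | h
  · obtain rfl : n = 1 := by omega
    exact stepIdentities_one (universalCurve.map f)
  · exact stepIdentities_of_charZero (universalCurve.map f) h

end Universal

end Fermat.Agent.EC.Torsion
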